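import Mathlib.NumberTheory.ModularForms.CongruenceSubgroups
import Mathlib.NumberTheory.Modular
import Mathlib.GroupTheory.GroupAction.Quotient

/-!
# `S` and `S T` on the cosets of a subgroup of `SL(2, ℤ)` containing `-1`

`S² = (S T)³ = -1`, so the two elliptic generators act on such cosets with order dividing two and
three.
-/

set_option autoImplicit false

namespace Fermat.SL2

open ModularGroup CongruenceSubgroup
open scoped MatrixGroups

/-- `S · S = -1`. -/
theorem S_mul_S : (S * S : SL(2, ℤ)) = -1 := by decide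

/-- `S² = -1`. -/
theorem S_sq : (S ^ 2 : SL(2, ℤ)) = -1 := by decide

/-- `(S T)³ = -1`. -/
theorem ST_cube : ((S * T) ^ 3 : SL(2, ℤ)) = -1 := by decide

/-- `-1` lies in `Γ₀(N)`. -/
theorem neg_one_mem_Gamma0 (N : ℕ) : -1 ∈ Gamma0 N := Gamma0_mem.mpr (by simp)

variable {Γ : Subgroup SL(2, ℤ)} (hneg : -1 ∈ Γ)

include hneg

/-- `-1` acts trivially on the cosets. -/
theorem neg_one_smul_coset (x : SL(2, ℤ) ⧸ Γ) : (-1 : SL(2, ℤ)) • x = x := by
  induction x using QuotientGroup.induction_on with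
  | H g =>
    rw [MulAction.Quotient.smul_mk, smul_eq_mul, QuotientGroup.eq]
    rwa [show ((-1 : SL(2, ℤ)) * g)⁻¹ * g = -1 by rw [inv_mul_eq_iff_eq_mul]; simp]

/-- `S²` acts trivially on the cosets. -/
theorem S_sq_smul_coset (x : SL(2, ℤ) ⧸ Γ) : S ^ 2 • x = x := by
  rw [S_sq, neg_one_smul_coset hneg]

/-- `S` acts as an involution on the cosets. -/
theorem S_smul_S_smul (x : SL(2, ℤ) ⧸ Γ) : S • S • x = x := by
  rw [smul_smul, S_mul_S, neg_one_smul_coset hneg]

/-- `(S T)³` acts trivially on the cosets. -/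
theorem ST_cube_smul_coset (x : SL(2, ℤ) ⧸ Γ) : (S * T) ^ 3 • x = x := by
  rw [ST_cube, neg_one_smul_coset hneg]

/-- `S T` acts with order dividing three on the cosets. -/
theorem ST_smul_cube (x : SL(2, ℤ) ⧸ Γ) : (S * T) • (S * T) • (S * T) • x = x := by
  rw [smul_smul, smul_smul, ← pow_three', ST_cube, neg_one_smul_coset hneg]

end Fermat.SL2
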